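import Fermat.Agent.LevelRaising.Symbols.Cross
import Fermat.Agent.Gamma0.Cocycle
import Mathlib.RingTheory.Finiteness.Basic

/-!
# The crossing homomorphisms span `Hom(Γ, R)`
-/

set_option autoImplicit false

noncomputable section

namespace Fermat.Agent.LevelRaising

open UpperHalfPlane Matrix Function Fermat.Agent.Gamma0
open scoped MatrixGroups BigOperators

/-- the crossing homomorphism with values in a ring -/
def crossHomR (R : Type*) [CommRing R] (Γ : Subgroup SL(2, ℤ)) (u v : Fin 2 → ℚ) :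
    Additive Γ →+ R :=
  (Int.castAddHom R).comp (crossHom Γ u v)

theorem crossHomR_apply (R : Type*) [CommRing R] (Γ : Subgroup SL(2, ℤ)) (u v : Fin 2 → ℚ)
    (x : Additive Γ) : crossHomR R Γ u v x = (crossHom Γ u v x : R) := rfl

/-- first basis vector -/
def cuspInf : Fin 2 → ℚ := ![1, 0]
/-- second basis vector -/
def cuspZero : Fin 2 → ℚ := ![0, 1]

variable {Γ : Subgroup SL(2, ℤ)}

/-- The cocycle of a geodesic on the coset space. -/
def crossCocycle (Γ : Subgroup SL(2, ℤ)) (u v : Fin 2 → ℚ) (g : SL(2, ℤ))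
    (x : SL(2, ℤ) ⧸ Γ) : ℤ :=
  crossFun Γ u v (x.out⁻¹ • g⁻¹ • rhoPt) - crossFun Γ u v (x.out⁻¹ • rhoPt)

theorem isCocycle_crossCocycle (u v : Fin 2 → ℚ) : IsCocycle (crossCocycle Γ u v) := by
  intro g h x
  have hmem : ((h • x).out)⁻¹ * (h * x.out) ∈ Γ := by
    rw [← QuotientGroup.eq, QuotientGroup.out_eq', ← smul_eq_mul, ← MulAction.Quotient.smul_coe,
      QuotientGroup.out_eq']
  set γ : Γ := ⟨_, hmem⟩ with hγ
  have e : ∀ z : ℍ, (h • x).out⁻¹ • z = (γ : SL(2, ℤ)) • (x.out⁻¹ • (h⁻¹ • z)) := fun z => by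
    rw [← mul_smul, ← mul_smul, hγ]; congr 1; simp [mul_assoc]
  simp only [crossCocycle, e, crossFun_smul_sub]
  rw [_root_.mul_inv_rev, mul_smul]
  ring

theorem crossCocycle_toHom (u v : Fin 2 → ℚ) :
    (isCocycle_crossCocycle (Γ := Γ) u v).toHom = -crossHom Γ u v := by
  refine AddMonoidHom.ext fun x => ?_
  rw [← ofMul_toMul x]
  set γ := Additive.toMul x
  rw [IsCocycle.toHom_apply, AddMonoidHom.neg_apply]
  have h1 : ((QuotientGroup.mk 1 : SL(2, ℤ) ⧸ Γ)).out ∈ Γ := by
    have := QuotientGroup.out_eq' (QuotientGroup.mk 1 : SL(2, ℤ) ⧸ Γ)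
    rw [eq_comm, QuotientGroup.eq, inv_one, one_mul] at this
    exact this
  have e := crossFun_smul_sub Γ u v (⟨_, h1⟩⁻¹ : Γ) ((γ⁻¹ : Γ) • rhoPt) rhoPt
  simp only [InvMemClass.coe_inv] at e
  show crossFun Γ u v _ - crossFun Γ u v _ = _
  rw [Subgroup.smul_def, InvMemClass.coe_inv] at e
  rw [e, crossFun_rho, sub_zero, ← InvMemClass.coe_inv γ, ← crossHom_apply, ofMul_inv, map_neg]

theorem crossCocycle_ST (u v : Fin 2 → ℚ) (x : SL(2, ℤ) ⧸ Γ) :
    crossCocycle Γ u v Gamma0.ST x = 0 := by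
  have h : Gamma0.ST • rhoPt = rhoPt := by
    ext1
    show UpperHalfPlane.coe ((Matrix.SpecialLinearGroup.mapGL ℝ Gamma0.ST) • rhoPt) = _
    rw [coe_smul_of_det_pos (by simp)]
    have h3 : ((Real.sqrt 3 : ℝ) : ℂ) ^ 2 = 3 := by
      rw [← Complex.ofReal_pow, Real.sq_sqrt (by norm_num)]; norm_num
    have hc : (rhoPt : ℂ) = -1 / 2 + (Real.sqrt 3 / 2 : ℝ) * Complex.I := by
      apply Complex.ext <;> simp [rhoPt]
    have hne : (1 : ℂ) * rhoPt + 1 ≠ 0 := by
      intro hh
      have := congrArg Complex.im hh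
      simp [rhoPt] at this
    rw [div_eq_iff (denom_ne_zero _ _)]
    simp [num, denom, coe_ST, hc]
    linear_combination ((1 : ℂ) / 4) * h3 + (-((Real.sqrt 3 : ℝ) : ℂ) ^ 2 / 4) * Complex.I_sq
  rw [crossCocycle, inv_smul_eq_iff.mpr h.symm, sub_self]

/-- the two ends of the segment crossed by the standard geodesic -/
theorem S_inv_smul_rhoPt :
    ModularGroup.S⁻¹ • rhoPt = ⟨⟨1 / 2, Real.sqrt 3 / 2⟩, by positivity⟩ := by
  rw [inv_smul_eq_iff, UpperHalfPlane.modular_S_smul]
  ext1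
  have h3 : Real.sqrt 3 * Real.sqrt 3 = 3 := Real.mul_self_sqrt (by norm_num)
  have hn : Complex.normSq ⟨1 / 2, Real.sqrt 3 / 2⟩ = 1 := by
    rw [Complex.normSq_mk]; linarith [h3]
  show (rhoPt : ℂ) = (-(⟨1 / 2, Real.sqrt 3 / 2⟩ : ℂ))⁻¹
  apply Complex.ext <;> simp only [Complex.inv_re, Complex.inv_im, Complex.normSq_neg, hn, div_one,
    Complex.neg_re, Complex.neg_im, neg_neg, rhoPt, neg_div]

theorem side_std (z : ℍ) : side cuspInf cuspZero z = if z.re < 0 then 1 else 0 := by
  simp [side, sideR, toR, cuspInf, cuspZero, wedge, geoForm]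

theorem re_smul_eq (g : SL(2, ℤ)) (z : ℍ) :
    (g • z).re = ((g 0 0 : ℝ) * g 1 0 * (z.re ^ 2 + z.im ^ 2)
      + ((g 0 0 : ℝ) * g 1 1 + g 0 1 * g 1 0) * z.re + g 0 1 * g 1 1) /
      Complex.normSq (denom (Matrix.SpecialLinearGroup.mapGL ℝ g) z) := by
  show ((Matrix.SpecialLinearGroup.mapGL ℝ g) • z : ℍ).re = _
  rw [UpperHalfPlane.re_smul, Complex.div_re, ← add_div]
  congr 1
  simp [num, denom]
  ring

/-- Only four translates of the standard geodesic separate the two points. -/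
theorem eq_of_side_std_ne {η : SL(2, ℤ)}
    (h : side cuspInf cuspZero (η • ModularGroup.S⁻¹ • rhoPt) ≠ side cuspInf cuspZero (η • rhoPt)) :
    η = 1 ∨ η = -1 ∨ η = ModularGroup.S ∨ η = -ModularGroup.S := by
  rw [S_inv_smul_rhoPt, side_std, side_std, re_smul_eq, re_smul_eq] at h
  set d1 := Complex.normSq (denom (Matrix.SpecialLinearGroup.mapGL ℝ η)
    ((⟨⟨1 / 2, Real.sqrt 3 / 2⟩, by positivity⟩ : ℍ) : ℂ))
  set d0 := Complex.normSq (denom (Matrix.SpecialLinearGroup.mapGL ℝ η) (rhoPt : ℂ))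
  have hd1 : 0 < d1 := normSq_denom_pos _ (UpperHalfPlane.im_ne_zero _)
  have hd0 : 0 < d0 := normSq_denom_pos _ (UpperHalfPlane.im_ne_zero _)
  simp only [div_lt_iff₀ hd1, div_lt_iff₀ hd0, zero_mul] at h
  have h3 : (Real.sqrt 3 / 2) ^ 2 = 3 / 4 := by
    rw [div_pow, Real.sq_sqrt (by norm_num)]; norm_num
  simp only [rhoPt, UpperHalfPlane.re, UpperHalfPlane.im, h3] at h
  norm_num [h3] at h
  set a := η 0 0
  set b := η 0 1
  set c := η 1 0
  set d := η 1 1
  have hdet : a * d - b * c = 1 := by rw [← Matrix.det_fin_two]; exact η.det_coe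
  have key : 4 * (a * c + b * d) ^ 2 ≤ (a * d + b * c) ^ 2 := by
    have hr : (4 : ℝ) * ((a : ℝ) * c + b * d) ^ 2 ≤ ((a : ℝ) * d + b * c) ^ 2 := by
      by_contra hcon
      apply h
      have hp : 0 < (2 * ((a : ℝ) * c + b * d) - ((a : ℝ) * d + b * c)) *
          (2 * ((a : ℝ) * c + b * d) + ((a : ℝ) * d + b * c)) := by nlinarith
      rcases pos_and_pos_or_neg_and_neg_of_mul_pos hp with ⟨h1, h2⟩ | ⟨h1, h2⟩
      · rw [if_neg (by linarith), if_neg (by linarith)]
      · rw [if_pos (by linarith), if_pos (by linarith)]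
    exact_mod_cast hr
  have hn : 0 ≤ (b * c) * (b * c + 1) := by
    rcases le_or_gt 0 (b * c) with h' | h'
    · positivity
    · nlinarith
  have hsum : 4 * (a * c) ^ 2 + 4 * (b * d) ^ 2 + 4 * ((b * c) * (b * c + 1)) ≤ 1 := by
    have had : a * d = b * c + 1 := by linarith
    have hacbd : (a * c) * (b * d) = (b * c) * (b * c + 1) := by
      rw [← had]; ring
    rw [had] at key
    nlinarith
  have hac : a * c = 0 := by nlinarith
  have hbd : b * d = 0 := by nlinarith
  rcases mul_eq_zero.mp hac with ha | hc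
  · have hbc : b * c = -1 := by rw [ha] at hdet; linarith
    have hd : d = 0 := (mul_eq_zero.mp hbd).resolve_left (by rintro hb; simp [hb] at hbc)
    rcases Int.eq_one_or_neg_one_of_mul_eq_neg_one hbc with hb | hb
    · right; right; right
      rw [hb] at hbc
      ext i j
      fin_cases i <;> fin_cases j <;> simp [ModularGroup.coe_S] <;> linarith
    · right; right; left
      rw [hb] at hbc
      ext i j
      fin_cases i <;> fin_cases j <;> simp [ModularGroup.coe_S] <;> linarith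
  · have had : a * d = 1 := by rw [hc] at hdet; linarith
    have hb : b = 0 := (mul_eq_zero.mp hbd).resolve_right (by rintro hd; simp [hd] at had)
    rcases Int.eq_one_or_neg_one_of_mul_eq_one had with ha | ha
    · left
      rw [ha] at had
      ext i j
      fin_cases i <;> fin_cases j <;> simp <;> linarith
    · right; left
      rw [ha] at had
      ext i j
      fin_cases i <;> fin_cases j <;> simp <;> linarith

theorem side_act (s g : SL(2, ℤ)) (u v : Fin 2 → ℚ) (z : ℍ) :
    side (act s u) (act s v) (g • z) = side u v ((s⁻¹ * g) • z) := by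
  rw [mul_smul, side_smul_point s⁻¹, inv_inv]

/-- the cocycle of a translate of the standard geodesic at `S` -/
theorem crossCocycle_S (hneg : -1 ∈ Γ) [DecidableEq (SL(2, ℤ) ⧸ Γ)] (x₀ x : SL(2, ℤ) ⧸ Γ) :
    crossCocycle Γ (act x₀.out⁻¹ cuspInf) (act x₀.out⁻¹ cuspZero) ModularGroup.S x =
      2 * ((if ModularGroup.S • x = x₀ then 1 else 0) - (if x = x₀ then 1 else 0)) := by
  classical
  set s := x₀.out⁻¹ with hs
  set k := x.out with hk
  let f : SL(2, ℤ) → ℤ := fun η => side cuspInf cuspZero (η • ModularGroup.S⁻¹ • rhoPt) -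
    side cuspInf cuspZero (η • rhoPt)
  have hsum : crossCocycle Γ (act s cuspInf) (act s cuspZero) ModularGroup.S x =
      ∑ᶠ η : SL(2, ℤ), if s * η * k ∈ Γ then f η else 0 := by
    rw [crossCocycle, crossFun_sub]
    calc _ = ∑ᶠ g : Γ, f (s⁻¹ * g * k⁻¹) := finsum_congr fun g => by
          simp only [f, side_act, mul_smul, hk]
      _ = ∑ᶠ g ∈ (Γ : Set SL(2, ℤ)), f (s⁻¹ * g * k⁻¹) := (finsum_set_coe_eq_finsum_mem (f := fun g => f (s⁻¹ * g * k⁻¹)) (Γ : Set SL(2, ℤ)))
      _ = _ := by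
        simp only [finsum_eq_if]
        refine (finsum_comp_equiv ((Equiv.mulLeft s).trans (Equiv.mulRight k))).symm.trans
          (finsum_congr fun η => ?_)
        simp [mul_assoc]
  have hsub : (support fun η : SL(2, ℤ) => if s * η * k ∈ Γ then f η else 0) ⊆
      (({1, -1, ModularGroup.S, -ModularGroup.S} : Finset SL(2, ℤ)) : Set SL(2, ℤ)) := by
    intro η hη
    have h0 : f η ≠ 0 := fun h => hη (by simp [h])
    have := eq_of_side_std_ne (η := η) (fun h => h0 (sub_eq_zero.mpr h))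
    simpa using this
  rw [hsum, finsum_eq_sum_of_support_subset _ hsub]
  have hr0 : rhoPt.re < 0 := by
    show (-1 / 2 : ℝ) < 0
    norm_num
  have hr1 : ¬ (ModularGroup.S⁻¹ • rhoPt).re < 0 := by
    rw [S_inv_smul_rhoPt]
    show ¬ ((1 / 2 : ℝ) < 0)
    norm_num
  have hS : ModularGroup.S • rhoPt = ModularGroup.S⁻¹ • rhoPt := by
    have : ModularGroup.S⁻¹ = -ModularGroup.S := by decide
    rw [this, ModularGroup.SL_neg_smul]
  have f1 : f 1 = -1 := by
    simp only [f, one_smul, side_std, hr0, hr1, if_true, if_false]; rfl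
  have f1' : f (-1) = -1 := by
    simp only [f, ModularGroup.SL_neg_smul, one_smul, side_std, hr0, hr1, if_true, if_false]; rfl
  have fS : f ModularGroup.S = 1 := by
    simp only [f, smul_inv_smul, hS, side_std, hr0, hr1, if_true, if_false]; rfl
  have fS' : f (-ModularGroup.S) = 1 := by
    simp only [f, ModularGroup.SL_neg_smul, smul_inv_smul, hS, side_std, hr0, hr1,
      if_true, if_false]; rfl
  have hnegmem : ∀ g : SL(2, ℤ), -g ∈ Γ ↔ g ∈ Γ := fun g => by
    constructor <;> intro hg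
    · simpa using Γ.mul_mem hneg hg
    · simpa using Γ.mul_mem hneg hg
  have e1 : s * 1 * k ∈ Γ ↔ x = x₀ := by
    rw [mul_one, hs, hk, ← QuotientGroup.eq, QuotientGroup.out_eq', QuotientGroup.out_eq', eq_comm]
  have eS : s * ModularGroup.S * k ∈ Γ ↔ ModularGroup.S • x = x₀ := by
    rw [mul_assoc, hs, hk, ← QuotientGroup.eq, QuotientGroup.out_eq', ← smul_eq_mul,
      ← MulAction.Quotient.smul_coe, QuotientGroup.out_eq', eq_comm]
  rw [Finset.sum_insert (by decide), Finset.sum_insert (by decide), Finset.sum_insert (by decide),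
    Finset.sum_singleton, f1, f1', fS, fS']
  simp only [mul_neg, neg_mul, hnegmem, e1, eS]
  split_ifs <;> ring

section Span

variable (R : Type*) [CommRing R]

/-- `3` has no torsion and `2` is invertible -/
theorem span_crossHomR_eq_top (hneg : -1 ∈ Γ) [Fintype (SL(2, ℤ) ⧸ Γ)] (h2 : IsUnit (2 : R))
    (h3 : ∀ r : R, 3 * r = 0 → r = 0) :
    Submodule.span R (Set.range fun x : SL(2, ℤ) ⧸ Γ =>
      crossHomR R Γ (act x.out⁻¹ cuspInf) (act x.out⁻¹ cuspZero)) = ⊤ := by
  classical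
  rw [eq_top_iff]
  rintro φ -
  have h2' : ∀ r : R, 2 * r = 0 → r = 0 := fun r hr => (h2.mul_right_eq_zero).mp hr
  have hφ : φ (Additive.ofMul ⟨-1, hneg⟩) = 0 := by
    refine h2' _ ?_
    rw [two_mul, ← map_add, ← ofMul_mul, ← map_zero φ]
    congr 1
    exact congrArg Additive.ofMul (Subtype.ext (by simp))
  obtain ⟨c, hc, ⟨hu, hv⟩, rfl⟩ := exists_cocycle_toHom hneg φ hφ
  have hfixv : ∀ x, Gamma0.ST • x = x → c Gamma0.ST x = 0 := fun x hx => h3 _ (by
    have := hv x; rw [hx, hx] at this; linear_combination this)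
  -- remove the part at `Gamma0.ST`
  have hR3 : ∀ x : SL(2, ℤ) ⧸ Γ, Gamma0.ST • Gamma0.ST • Gamma0.ST • x = x := fun x => by
    rw [← mul_smul, ← mul_smul, ← pow_two, ← pow_succ, ST_pow_three, neg_one_smul_coset hneg]
  let lab := Fintype.equivFin (SL(2, ℤ) ⧸ Γ)
  let f : SL(2, ℤ) ⧸ Γ → R := fun x =>
    if lab x ≤ lab (Gamma0.ST • x) ∧ lab x ≤ lab (Gamma0.ST • Gamma0.ST • x) then 0
    else if lab (Gamma0.ST • Gamma0.ST • x) ≤ lab x ∧ lab (Gamma0.ST • Gamma0.ST • x) ≤ lab (Gamma0.ST • x) then c Gamma0.ST (Gamma0.ST • Gamma0.ST • x)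
    else c Gamma0.ST (Gamma0.ST • x) + c Gamma0.ST (Gamma0.ST • Gamma0.ST • x)
  have hf : ∀ x, f (Gamma0.ST • x) - f x = c Gamma0.ST x := by
    intro x
    simp only [f, hR3]
    by_cases hx : Gamma0.ST • x = x
    · simp only [hx, hfixv x hx, sub_self]
    have n1 : lab x ≠ lab (Gamma0.ST • x) := fun h => hx (lab.injective h).symm
    have n2 : lab (Gamma0.ST • x) ≠ lab (Gamma0.ST • Gamma0.ST • x) := fun h =>
      hx (MulAction.injective _ (lab.injective h)).symm
    have n3 : lab (Gamma0.ST • Gamma0.ST • x) ≠ lab x := fun h => hx (by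
      have h' := congrArg (Gamma0.ST • ·) (lab.injective h)
      simp only [hR3] at h'
      exact h'.symm)
    have := hv x
    split_ifs <;> first
      | (exfalso; omega)
      | linear_combination this
      | linear_combination -this
      | linear_combination 0 * this
  let c' : SL(2, ℤ) → SL(2, ℤ) ⧸ Γ → R := fun g x => c g x - (f (g • x) - f x)
  have hc' : IsCocycle c' := fun g h x => by
    simp only [c', mul_smul]; rw [hc g h x]; ring
  have hhom : hc'.toHom = hc.toHom := by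
    refine AddMonoidHom.ext fun x => ?_
    rw [← ofMul_toMul x, IsCocycle.toHom_apply, IsCocycle.toHom_apply]
    have hfix : ((Additive.toMul x : Γ) : SL(2, ℤ)) • (QuotientGroup.mk 1 : SL(2, ℤ) ⧸ Γ) =
        QuotientGroup.mk 1 := by
      rw [MulAction.Quotient.smul_coe, smul_eq_mul, mul_one, QuotientGroup.eq]
      simp
    simp [c', hfix]
  have hc'Gamma0.ST : ∀ x, c' Gamma0.ST x = 0 := fun x => by simp [c', hf]
  have hu' : ∀ x, c' ModularGroup.S x + c' ModularGroup.S (ModularGroup.S • x) = 0 := fun x => by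
    have hSS : ModularGroup.S • ModularGroup.S • x = x := by
      rw [← mul_smul, Fermat.Agent.Gamma0.S_mul_S, neg_one_smul_coset hneg]
    simp only [c', hSS]
    linear_combination hu x
  obtain ⟨quart, hquart⟩ := (h2.mul h2).exists_left_inv
  -- the combination of geodesics
  let D : SL(2, ℤ) → SL(2, ℤ) ⧸ Γ → R := fun g x => ∑ x₀, (-quart * c' ModularGroup.S x₀) *
    (crossCocycle Γ (act x₀.out⁻¹ cuspInf) (act x₀.out⁻¹ cuspZero) g x : R)
  have hD : IsCocycle D := fun g h x => by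
    simp only [D, ← Finset.sum_add_distrib]
    refine Finset.sum_congr rfl fun x₀ _ => ?_
    rw [isCocycle_crossCocycle _ _ g h x, Int.cast_add, mul_add]
  have hDS : D ModularGroup.S = c' ModularGroup.S := by
    funext x
    simp only [D, crossCocycle_S hneg, Int.cast_sub, Int.cast_ite, Int.cast_zero, Int.cast_ofNat,
      mul_sub, mul_ite, mul_one, mul_zero, Finset.sum_sub_distrib, Finset.sum_ite_eq,
      Finset.mem_univ, if_true]
    linear_combination (-2 * quart) * hu' x + c' ModularGroup.S x * hquart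
  have hDT : D Gamma0.ST = c' Gamma0.ST := by
    funext x
    simp [D, crossCocycle_ST, hc'Gamma0.ST]
  rw [← hhom]
  have heq : hc'.toHom = ∑ x₀, (quart * c' ModularGroup.S x₀) •
      crossHomR R Γ (act x₀.out⁻¹ cuspInf) (act x₀.out⁻¹ cuspZero) := by
    have hcD : c' = D := hc'.ext_of_eq hD hDS.symm hDT.symm
    refine AddMonoidHom.ext fun y => ?_
    rw [← ofMul_toMul y, IsCocycle.toHom_apply]
    set q := quart with hq
    rw [AddMonoidHom.finsetSum_apply]
    refine (congrFun (congrFun hcD _) _).trans (Finset.sum_congr rfl fun x₀ _ => ?_)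
    have := congrArg (fun χ : Additive Γ →+ ℤ => χ (Additive.ofMul (Additive.toMul y)))
      (crossCocycle_toHom (Γ := Γ) (act x₀.out⁻¹ cuspInf) (act x₀.out⁻¹ cuspZero))
    simp only [IsCocycle.toHom_apply, AddMonoidHom.neg_apply] at this
    rw [this, AddMonoidHom.smul_apply, crossHomR_apply, smul_eq_mul]
    push_cast
    ring
  rw [heq]
  exact Submodule.sum_mem _ fun x₀ _ => Submodule.smul_mem _ _
    (Submodule.subset_span ⟨x₀, rfl⟩)

/-- `Hom(Γ, R)` is a finite module -/
theorem finite_hom (hneg : -1 ∈ Γ) [Fintype (SL(2, ℤ) ⧸ Γ)] (h2 : IsUnit (2 : R))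
    (h3 : ∀ r : R, 3 * r = 0 → r = 0) : Module.Finite R (Additive Γ →+ R) :=
  ⟨Submodule.fg_def.mpr ⟨_, Set.finite_range _, span_crossHomR_eq_top R hneg h2 h3⟩⟩

end Span

end Fermat.Agent.LevelRaising
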